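import Mathlib

/-!
# The equation `x X² - (x - 1) Y² = 1` with `X` composed of primes of `x`

Its positive solutions come from the odd powers of `√x + √(x - 1)`. By Störmer's argument the
primes of `X` all divide `x` only for the first two (Ljunggren).
-/

set_option autoImplicit false

namespace FA.SquareSequences

/-- Multiplication by `(√x + √(x - 1))²`. -/
def pellStep (x : ℤ) (p : ℤ × ℤ) : ℤ × ℤ :=
  ((2 * x - 1) * p.1 + 2 * (x - 1) * p.2, 2 * x * p.1 + (2 * x - 1) * p.2)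

/-- The coordinates of the odd powers of `√x + √(x - 1)`. -/
def pellOdd (x : ℤ) : ℕ → ℤ × ℤ
  | 0 => (1, 1)
  | j + 1 => pellStep x (pellOdd x j)

theorem pellOdd_rec (x : ℤ) (j : ℕ) :
    (pellOdd x (j + 2)).1 = (4 * x - 2) * (pellOdd x (j + 1)).1 - (pellOdd x j).1 := by
  simp only [pellOdd, pellStep]
  ring

theorem pellOdd_one (x : ℤ) : (pellOdd x 1).1 = 4 * x - 3 := by
  simp only [pellOdd, pellStep]
  ring

theorem pellOdd_four (x : ℤ) :
    (pellOdd x 4).1 = (4 * x - 3) * (4 * x * (4 * x - 3) ^ 2 - 3) := by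
  simp only [pellOdd, pellStep]
  ring

theorem pellOdd_bounds {x : ℤ} (hx : 2 ≤ x) :
    ∀ j : ℕ, (3 : ℤ) ^ j ≤ (pellOdd x j).1 ∧ 0 ≤ (pellOdd x j).2
  | 0 => by simp [pellOdd]
  | j + 1 => by
    obtain ⟨h1, h2⟩ := pellOdd_bounds hx j
    have h3 : (0 : ℤ) < 3 ^ j := by positivity
    simp only [pellOdd, pellStep, pow_succ]
    constructor <;> nlinarith

/-- Every solution is one of the odd powers. -/
theorem exists_pellOdd {x : ℤ} (hx : 2 ≤ x) {X Y : ℤ} (hX : 1 ≤ X) (hY : 0 ≤ Y)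
    (h : x * X ^ 2 - (x - 1) * Y ^ 2 = 1) : ∃ j, pellOdd x j = (X, Y) := by
  induction hk : X.natAbs using Nat.strong_induction_on generalizing X Y with
  | _ k ih =>
    subst hk
    rcases hX.eq_or_lt with rfl | hX1
    · refine ⟨0, Prod.ext rfl ((sq_eq_sq₀ zero_le_one hY).1 ?_)⟩
      exact mul_left_cancel₀ (show x - 1 ≠ 0 by omega) (by linear_combination h)
    have hXY : X < Y := by
      by_contra hle
      push Not at hle
      nlinarith [mul_le_mul hle hle hY (by omega : 0 ≤ X)]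
    set X' := (2 * x - 1) * X - 2 * (x - 1) * Y with hX'
    set Y' := -2 * x * X + (2 * x - 1) * Y with hY'
    have hlt : X' < X := by nlinarith
    have hpos : 0 < X' := by
      by_contra hle
      push Not at hle
      nlinarith [mul_le_mul (show (2 * x - 1) * X ≤ 2 * (x - 1) * Y by linarith)
        (show (2 * x - 1) * X ≤ 2 * (x - 1) * Y by linarith) (by nlinarith) (by nlinarith)]
    obtain ⟨j, hj⟩ := ih X'.natAbs (by omega) (X := X') (Y := |Y'|) hpos (abs_nonneg _)
      (by rw [sq_abs, hX', hY']; linear_combination h) rfl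
    rcases abs_choice Y' with e | e <;> rw [e] at hj
    · refine ⟨j + 1, ?_⟩
      simp only [pellOdd, hj, pellStep, hX', hY', Prod.mk.injEq]
      constructor <;> ring
    · obtain _ | i := j
      · simp only [pellOdd, Prod.mk.injEq] at hj
        obtain ⟨h1, h2⟩ := hj
        rw [hX'] at h1
        rw [hY'] at h2
        nlinarith [congrArg ((2 * x - 1) * ·) h1, congrArg (2 * (x - 1) * ·) h2]
      · simp only [pellOdd, pellStep, hX', hY', Prod.mk.injEq] at hj
        obtain ⟨h1, h2⟩ := hj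
        have : (pellOdd x i).2 = -Y := by linear_combination -(2 * x) * h1 + (2 * x - 1) * h2
        have := (pellOdd_bounds hx i).2
        omega

theorem pellOdd_modEq (x : ℤ) : ∀ j : ℕ,
    (∃ K, (-1) ^ j * (pellOdd x j).1 = (2 * j + 1) + x * K) ∧
    ∃ K, 3 * (-1) ^ j * (pellOdd x j).1 =
      3 * (2 * j + 1) - 2 * j * (j + 1) * (2 * j + 1) * x + x ^ 2 * K
  | 0 => ⟨⟨0, by simp [pellOdd]⟩, ⟨0, by simp [pellOdd]⟩⟩
  | 1 => ⟨⟨-4, by rw [pellOdd_one]; push_cast; ring⟩, ⟨0, by rw [pellOdd_one]; push_cast; ring⟩⟩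
  | j + 2 => by
    obtain ⟨⟨a, ha⟩, A, hA⟩ := pellOdd_modEq x j
    obtain ⟨⟨b, hb⟩, B, hB⟩ := pellOdd_modEq x (j + 1)
    rw [pow_succ] at hb hB
    push_cast at hb hB ⊢
    rw [pellOdd_rec, pow_add]
    refine ⟨⟨(2 - 4 * x) * b - a - 4 * (2 * j + 3), ?_⟩,
      ⟨(2 - 4 * x) * B - A + 8 * (j + 1) * (j + 2) * (2 * j + 3), ?_⟩⟩
    · linear_combination (2 - 4 * x) * hb - ha
    · linear_combination (2 - 4 * x) * hB - hA

theorem dvd_pellOdd_add (x : ℤ) (i t : ℕ) :
    (pellOdd x i).1 ∣ (pellOdd x (i + t * (2 * i + 1))).1 := by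
  set X : ℕ → ℤ := fun j => (pellOdd x j).1 with hXdef
  have hrec : ∀ j, X (j + 2) = (4 * x - 2) * X (j + 1) - X j := pellOdd_rec x
  show X i ∣ X (i + t * (2 * i + 1))
  obtain _ | i := i
  · exact one_dvd _
  have refl : ∀ k, k ≤ i + 1 → X (i + 1) ∣ X (i + 1 + k) + X (i + 1 - k) := by
    intro k
    induction k using Nat.twoStepInduction with
    | zero => intro _; exact (dvd_refl _).add (dvd_refl _)
    | one =>
      intro _
      refine ⟨4 * x - 2, ?_⟩
      rw [show i + 1 + 1 = i + 2 by ring, show i + 1 - 1 = i by omega, hrec i]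
      ring
    | more k ih ih' =>
      intro hk
      obtain ⟨r, hr⟩ : ∃ r, i + 1 - (k + 2) = r := ⟨_, rfl⟩
      have h0 := ih (by omega)
      have h1 := ih' (by omega)
      rw [show i + 1 - k = r + 2 by omega, hrec r] at h0
      rw [show i + 1 - (k + 1) = r + 1 by omega] at h1
      rw [hr, show i + 1 + (k + 2) = i + 1 + k + 2 by ring, hrec,
        show i + 1 + k + 1 = i + 1 + (k + 1) by ring]
      have := (h1.mul_left (4 * x - 2)).sub h0
      ring_nf at this ⊢
      exact this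
  have hX0 : X 0 = 1 := rfl
  have hX1 : X 1 = 4 * x - 3 := pellOdd_one x
  have h2i : X (i + 1) ∣ X (2 * i + 2) + 1 := by
    have := refl (i + 1) le_rfl
    rw [Nat.sub_self, hX0, show i + 1 + (i + 1) = 2 * i + 2 by ring] at this
    exact this
  have h2i1 : X (i + 1) ∣ X (2 * i + 1) + X 1 := by
    have := refl i (by omega)
    rw [show i + 1 - i = 1 by omega, show i + 1 + i = 2 * i + 1 by ring] at this
    exact this
  have per : ∀ m, X (i + 1) ∣ X (m + (2 * i + 3)) + X m := by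
    intro m
    induction m using Nat.twoStepInduction with
    | zero =>
      rw [zero_add, show 2 * i + 3 = 2 * i + 1 + 2 by ring, hrec,
        show 2 * i + 1 + 1 = 2 * i + 2 by ring, hX0]
      have := (h2i.mul_left (4 * x - 2)).sub h2i1
      rw [hX1] at this
      ring_nf at this ⊢
      exact this
    | one =>
      rw [show 1 + (2 * i + 3) = 2 * i + 2 + 2 by ring, hrec,
        show 2 * i + 2 + 1 = 2 * i + 1 + 2 by ring, hrec,
        show 2 * i + 1 + 1 = 2 * i + 2 by ring, hX1]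
      have := ((h2i.mul_left ((4 * x - 2) ^ 2 - 1))).sub (h2i1.mul_left (4 * x - 2))
      rw [hX1] at this
      ring_nf at this ⊢
      exact this
    | more m ih ih' =>
      rw [show m + 1 + 1 + (2 * i + 3) = m + (2 * i + 3) + 2 by ring, hrec, hrec m,
        show m + (2 * i + 3) + 1 = m + 1 + (2 * i + 3) by ring]
      have := (ih'.mul_left (4 * x - 2)).sub ih
      ring_nf at this ⊢
      exact this
  induction t with
  | zero => simp
  | succ t ih =>
    have h := (per (i + 1 + t * (2 * (i + 1) + 1))).sub ih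
    rw [add_sub_cancel_right] at h
    rwa [show i + 1 + (t + 1) * (2 * (i + 1) + 1) = i + 1 + t * (2 * (i + 1) + 1) + (2 * i + 3) by
      ring]

/-- **Störmer's argument**: if all primes of `X` divide `x`, the solution is one of the first
two. -/
theorem pellOdd_index_le_one {x : ℤ} (hx : 2 ≤ x) {j : ℕ}
    (h : ∀ q : ℕ, q.Prime → (q : ℤ) ∣ (pellOdd x j).1 → (q : ℤ) ∣ x) : j ≤ 1 := by
  have hdiv : ∀ i, 2 * i + 1 ∣ 2 * j + 1 → ∀ q : ℕ, q.Prime →
      (q : ℤ) ∣ (pellOdd x i).1 → (q : ℤ) ∣ x ∧ q ∣ 2 * i + 1 := by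
    rintro i ⟨s, hs⟩ q hq hd
    obtain ⟨t, rfl⟩ : Odd s :=
      (Nat.odd_mul.1 (show Odd ((2 * i + 1) * s) by rw [← hs]; exact ⟨j, rfl⟩)).2
    have hj : j = i + t * (2 * i + 1) := by
      have : (2 * i + 1) * (2 * t + 1) = 2 * (i + t * (2 * i + 1)) + 1 := by ring
      omega
    have hqx := h q hq (hd.trans (hj ▸ dvd_pellOdd_add x i t))
    obtain ⟨K, hK⟩ := (pellOdd_modEq x i).1
    refine ⟨hqx, Int.natCast_dvd_natCast.1 ?_⟩
    push_cast
    have := (hd.mul_left ((-1) ^ i)).sub (hqx.mul_right K)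
    rwa [hK, add_sub_cancel_right] at this
  have three : ∀ p : ℕ, p.Prime → p ∣ 2 * j + 1 → p = 3 := by
    intro p hp hpj
    by_contra h3
    obtain ⟨i, rfl⟩ : Odd p := Odd.of_dvd_nat ⟨j, rfl⟩ hpj
    have hi : 2 ≤ i := by
      rcases i with _ | _ | i
      · exact absurd hp Nat.not_prime_one
      · omega
      · omega
    have hpow : (2 * i + 1 : ℤ) < 3 ^ i := by
      clear * - hi
      induction i, hi using Nat.le_induction with
      | base => norm_num
      | succ k hk ih => rw [pow_succ]; push_cast; omega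
    have hbig := hpow.trans_le (pellOdd_bounds hx i).1
    have hpos : ((pellOdd x i).1.natAbs : ℤ) = (pellOdd x i).1 := Int.natAbs_of_nonneg (by omega)
    set N := (pellOdd x i).1.natAbs with hN
    have hall : ∀ q : ℕ, q.Prime → q ∣ N → q = 2 * i + 1 := fun q hq hd =>
      (Nat.prime_dvd_prime_iff_eq hq hp).1
        (hdiv i hpj q hq (hpos ▸ Int.natCast_dvd_natCast.2 hd)).2
    have e := Nat.eq_prime_pow_of_unique_prime_dvd (show N ≠ 0 by omega) (hall _)
    set a := N.primeFactorsList.length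
    have ha : 2 ≤ a := by
      by_contra ha
      have := Nat.pow_le_pow_right hp.pos (show a ≤ 1 by omega)
      rw [pow_one] at this
      omega
    have hp1 : ((2 * i + 1 : ℕ) : ℤ) ∣ x := (hdiv i hpj _ hp (hpos ▸ Int.natCast_dvd_natCast.2
      (e ▸ dvd_pow_self _ (by omega)))).1
    have hp2 : ((2 * i + 1 : ℕ) : ℤ) ^ 2 ∣ (pellOdd x i).1 := by
      rw [← hpos, e]
      push_cast
      exact pow_dvd_pow _ ha
    push_cast at hp1 hp2
    obtain ⟨K, hK⟩ := (pellOdd_modEq x i).2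
    obtain ⟨y, rfl⟩ := hp1
    obtain ⟨c, hc⟩ := hp2
    rw [hc] at hK
    have h30 : (3 : ℤ) = (2 * i + 1) *
        (3 * (-1) ^ i * c + 2 * i * (i + 1) * y - y ^ 2 * K) :=
      mul_left_cancel₀ (show (2 * i + 1 : ℤ) ≠ 0 by omega) (by linear_combination -hK)
    have hd3 : 2 * i + 1 ∣ 3 := Int.natCast_dvd_natCast.1 (by push_cast; exact ⟨_, h30⟩)
    exact h3 ((Nat.prime_dvd_prime_iff_eq hp Nat.prime_three).1 hd3)
  by_contra hj
  have e := Nat.eq_prime_pow_of_unique_prime_dvd (show 2 * j + 1 ≠ 0 by omega) (three _)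
  set r := (2 * j + 1).primeFactorsList.length
  have hr : 2 ≤ r := by
    by_contra hr
    have := Nat.pow_le_pow_right (show 3 > 0 by norm_num) (show r ≤ 1 by omega)
    omega
  have h9 : 2 * 4 + 1 ∣ 2 * j + 1 := e ▸ pow_dvd_pow 3 hr
  have h4 : ∀ q : ℕ, q.Prime → (q : ℤ) ∣ (pellOdd x 4).1 → (q : ℤ) ∣ x ∧ q = 3 := fun q hq hd =>
    ⟨(hdiv 4 h9 q hq hd).1, (Nat.prime_dvd_prime_iff_eq hq Nat.prime_three).1
      (hq.dvd_of_dvd_pow (n := 2) ((hdiv 4 h9 q hq hd).2))⟩
  rw [pellOdd_four] at h4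
  obtain ⟨q, hq, hqd⟩ := Nat.exists_prime_and_dvd (n := (4 * x - 3).natAbs) (by omega)
  obtain ⟨hqx, rfl⟩ := h4 q hq ((Int.natCast_dvd.2 hqd).mul_right _)
  set Q := 4 * x * (4 * x - 3) ^ 2 - 3 with hQ
  have hQ5 : 5 < Q := by
    have h25 : 25 ≤ (4 * x - 3) ^ 2 := by nlinarith
    nlinarith
  have hQ6 : Q % 9 = 6 := by
    obtain ⟨y, rfl⟩ := hqx
    rw [hQ, show 4 * (((3 : ℕ) : ℤ) * y) * (4 * (((3 : ℕ) : ℤ) * y) - 3) ^ 2 - 3 =
      9 * (12 * y * (4 * y - 1) ^ 2) - 3 by push_cast; ring]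
    omega
  have eQ := Nat.eq_prime_pow_of_unique_prime_dvd (show Q.natAbs ≠ 0 by omega)
    (p := 3) (fun {d} hd hdQ => (h4 d hd ((Int.natCast_dvd.2 hdQ).mul_left _)).2)
  set b := Q.natAbs.primeFactorsList.length
  have hb : 2 ≤ b := by
    by_contra hb
    have := Nat.pow_le_pow_right (show 3 > 0 by norm_num) (show b ≤ 1 by omega)
    omega
  have := pow_dvd_pow 3 hb
  rw [← eQ] at this
  omega

end FA.SquareSequences
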