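import Fermat.Agent.SquareSequences.Basic
import Fermat.Agent.SquareSequences.Pell
import Fermat.Agent.Torsion.Quartic

/-!
# Squares `1 + x + ⋯ + x ^ (n - 1)` (Ljunggren)

Odd lengths lead to `x X² - (x - 1) Y² = 1`; even lengths to quartic equations with Fermat's
descent.
-/

set_option autoImplicit false

open Finset

namespace FA.SquareSequences

/-- `c⁴ = 2 q² + 1` only for `q = 0`. -/
theorem quartic_eq_two_sq_add_one {c q : ℤ} (h : c ^ 4 = 2 * q ^ 2 + 1) : q = 0 := by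
  obtain ⟨t, rfl⟩ : Odd c :=
    (Int.odd_pow' (show 4 ≠ 0 by norm_num)).1 (h ▸ ⟨q ^ 2, rfl⟩)
  obtain ⟨w, hw⟩ := Int.even_mul_succ_self t
  have hw0 : 0 ≤ w := by rcases le_or_gt 0 t with ht | ht <;> nlinarith
  have hcc : (2 * t + 1) ^ 2 = 8 * w + 1 := by linear_combination 4 * hw
  have hq : 8 * w * (4 * w + 1) = q ^ 2 := by
    have : (8 * w + 1) ^ 2 = 2 * q ^ 2 + 1 := by rw [← hcc, ← h]; ring
    linarith [show (8 * w + 1) ^ 2 = 2 * (8 * w * (4 * w + 1)) + 1 by ring]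
  obtain ⟨r, rfl⟩ : (2 : ℤ) ∣ q :=
    Int.prime_two.dvd_of_dvd_pow (n := 2) ⟨4 * w * (4 * w + 1), by rw [← hq]; ring⟩
  have hr : 2 * w * (4 * w + 1) = r ^ 2 := by linarith [show (2 * r) ^ 2 = 4 * r ^ 2 by ring]
  obtain ⟨s, hs⟩ := pow_of_coprime_mul_nonneg even_two two_ne_zero
    (show IsCoprime (2 * w) (4 * w + 1) from ⟨-2, 1, by ring⟩) (by omega) hr
  -- `(2 t + 1)² = 4 s² + 1`
  have he : (2 * t + 1 - 2 * s) * (2 * t + 1 + 2 * s) = 1 := by linear_combination hcc + 4 * hs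
  have hs0 : s = 0 := by rcases Int.eq_one_or_neg_one_of_mul_eq_one' he with h' | h' <;> omega
  subst hs0
  rw [show 2 * w = 0 by simpa using hs, zero_mul] at hr
  rw [(pow_eq_zero_iff two_ne_zero).1 hr.symm, mul_zero]

/-- `a⁴ + 1 = 2 z²` only for `a² = 1`. -/
theorem quartic_add_one {a z : ℤ} (h : a ^ 4 + 1 = 2 * z ^ 2) : a ^ 2 = 1 := by
  rcases FA.Torsion.quartic_add_eq_two_sq (x := a) (y := 1) isCoprime_one_right
    (by linarith [h]) with h0 | h0
  · exfalso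
    rw [mul_one] at h0
    subst h0
    omega
  · simpa using h0

/-- `u² = 8 s⁴ + 1` only for `s = 0` and `s² = 1`. -/
theorem sq_eq_eight_quartic_add_one {u s : ℤ} (hu : 0 ≤ u) (h : u ^ 2 = 8 * s ^ 4 + 1) :
    s = 0 ∨ s ^ 2 = 1 := by
  obtain ⟨v, rfl⟩ : Odd u := (Int.odd_pow' two_ne_zero).1 (h ▸ ⟨4 * s ^ 4, by ring⟩)
  have h4 : Even 4 := ⟨2, rfl⟩
  have e : (2 * v + 1) ^ 2 = 4 * (v * (v + 1)) + 1 := by ring
  have hv : v * (v + 1) = 2 * s ^ 4 := by linarith
  rcases Int.even_or_odd' v with ⟨w, rfl | rfl⟩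
  · left
    have hco : IsCoprime w (2 * w + 1) := ⟨-2, 1, by ring⟩
    have hm : w * (2 * w + 1) = s ^ 4 := by linarith
    obtain ⟨d, hd⟩ := pow_of_coprime_mul_nonneg h4 four_ne_zero hco (by omega) hm
    obtain ⟨c, hc⟩ := pow_of_coprime_mul_nonneg h4 four_ne_zero hco.symm (by omega)
      (by rw [mul_comm]; exact hm)
    have := quartic_eq_two_sq_add_one (c := c) (q := d ^ 2) (by rw [← hc, hd]; ring)
    rw [pow_eq_zero_iff two_ne_zero] at this
    rw [hd, this] at hm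
    simpa using hm.symm
  · have hco : IsCoprime (2 * w + 1) (w + 1) := ⟨-1, 2, by ring⟩
    have hm : (2 * w + 1) * (w + 1) = s ^ 4 := by linarith
    obtain ⟨c, hc⟩ := pow_of_coprime_mul_nonneg h4 four_ne_zero hco (by omega) hm
    obtain ⟨d, hd⟩ := pow_of_coprime_mul_nonneg h4 four_ne_zero hco.symm (by omega)
      (by rw [mul_comm]; exact hm)
    have e4 : (d ^ 2) ^ 2 = d ^ 4 := by ring
    have hc1 := quartic_add_one (a := c) (z := d ^ 2) (by rw [← hc, e4]; linarith)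
    have hw : w = 0 := by rw [show c ^ 4 = (c ^ 2) ^ 2 by ring, hc1] at hc; omega
    subst hw
    have e4' : (s ^ 2) ^ 2 = s ^ 4 := by ring
    exact Or.inr ((pow_eq_one_iff_of_nonneg (sq_nonneg s) two_ne_zero).1 (by linarith))

/-- `b⁴ + (b² - 1)² = z²` only for `b² ∈ {0, 1, 4}`. -/
theorem sq_eq_quartic_sum {b z : ℤ} (h : b ^ 4 + (b ^ 2 - 1) ^ 2 = z ^ 2) :
    b ^ 2 = 0 ∨ b ^ 2 = 1 ∨ b ^ 2 = 4 := by
  obtain ⟨m, n, hmn, -, hg, hpar⟩ := PythagoreanTriple.coprime_classification.1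
    ⟨show PythagoreanTriple (b ^ 2) (b ^ 2 - 1) z by
      unfold PythagoreanTriple; linear_combination h,
      Int.isCoprime_iff_gcd_eq_one.1 ⟨1, -1, by ring⟩⟩
  have hco : IsCoprime m n := Int.isCoprime_iff_gcd_eq_one.2 hg
  rcases hmn with ⟨h1, h2⟩ | ⟨h1, h2⟩
  · -- `b² = m² - n²`, `b² - 1 = 2 m n`
    have hsum : IsCoprime (m - n) (m + n) := by
      obtain ⟨a, c, hac⟩ := hco
      obtain ⟨d, hd⟩ : Odd (m - n) := by
        rcases hpar with ⟨p, q⟩ | ⟨p, q⟩ <;> exact Int.odd_iff.2 (by omega)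
      have h2 : IsCoprime (m - n) 2 := ⟨1, -d, by omega⟩
      have h2n : IsCoprime (m - n) (2 * n) := h2.mul_right ⟨a, a + c, by linear_combination hac⟩
      have := h2n.add_mul_left_right 1
      rwa [show 2 * n + (m - n) * 1 = m + n by ring] at this
    obtain ⟨c, hc⟩ : ∃ c, (m - n) ^ 2 = c ^ 4 := by
      obtain ⟨c, hc⟩ := exists_associated_pow_of_mul_eq_pow' hsum
        (show (m - n) * (m + n) = b ^ 2 by rw [h1]; ring)
      refine ⟨c, ?_⟩
      rcases Int.associated_iff.1 hc with e | e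
      · rw [← e]; ring
      · rw [show m - n = -(c ^ 2) by linarith]; ring
    have hn : n = 0 := quartic_eq_two_sq_add_one (c := c) (by
      rw [← hc]; linear_combination h1.symm - h2.symm)
    subst hn
    exact Or.inr (Or.inl (by linarith))
  · -- `b² = 2 m n`, `b² - 1 = m² - n²`
    obtain ⟨m, hm0, hmsq⟩ : ∃ M, 0 ≤ M ∧ M = |m| := ⟨_, abs_nonneg m, rfl⟩
    obtain ⟨n', hn0, hnsq⟩ : ∃ N, 0 ≤ N ∧ N = |n| := ⟨_, abs_nonneg n, rfl⟩
    have hb : b ^ 2 = 2 * (m * n') := by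
      rw [hmsq, hnsq, ← abs_mul, abs_of_nonneg (by nlinarith [sq_nonneg b]), h1]; ring
    have hb1 : b ^ 2 - 1 = m ^ 2 - n' ^ 2 := by rw [hmsq, hnsq, sq_abs, sq_abs]; exact h2
    have hco' : IsCoprime m n' := hmsq ▸ hnsq ▸ hco.abs_abs
    clear h1 h2 hg hpar hco hmsq hnsq
    obtain ⟨b, rfl⟩ : (2 : ℤ) ∣ b := Int.prime_two.dvd_of_dvd_pow (n := 2) ⟨_, hb⟩
    obtain ⟨m', rfl⟩ : (2 : ℤ) ∣ m := by
      rcases Int.even_or_odd' m with ⟨p, rfl | rfl⟩
      · exact dvd_mul_right _ _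
      · rcases Int.even_or_odd' n' with ⟨q, rfl | rfl⟩
        · exfalso
          have : 2 * (b ^ 2 - p ^ 2 - p + q ^ 2) = 1 := by linarith [show (2 * b) ^ 2 - 1 -
            ((2 * p + 1) ^ 2 - (2 * q) ^ 2) + 2 = 4 * (b ^ 2 - p ^ 2 - p + q ^ 2) by ring]
          omega
        · exfalso
          have : 4 * (b ^ 2 - p ^ 2 - p + q ^ 2 + q) = 1 := by linarith [show (2 * b) ^ 2 - 1 -
            ((2 * p + 1) ^ 2 - (2 * q + 1) ^ 2) + 1 = 4 * (b ^ 2 - p ^ 2 - p + q ^ 2 + q) by ring]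
          omega
    have hmul : m' * n' = b ^ 2 := by linarith [show (2 * b) ^ 2 = 4 * b ^ 2 by ring]
    have hco2 : IsCoprime m' n' := hco'.of_mul_left_right
    obtain ⟨s, rfl⟩ := pow_of_coprime_mul_nonneg even_two two_ne_zero hco2 (by omega) hmul
    obtain ⟨t, rfl⟩ := pow_of_coprime_mul_nonneg even_two two_ne_zero hco2.symm hn0
      (by rw [mul_comm]; exact hmul)
    have key : (t ^ 2 + 2 * s ^ 2) ^ 2 = 8 * s ^ 4 + 1 := by
      linear_combination hb1 - hb
    rcases sq_eq_eight_quartic_add_one (by positivity) key with rfl | hs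
    · left; rw [hb]; ring
    · right; right
      have ht : t ^ 2 + 2 = 3 := (sq_eq_sq₀ (by positivity) (by norm_num)).1 (by
        rw [show s ^ 4 = (s ^ 2) ^ 2 by ring, hs] at key
        linarith)
      rw [hb, hs, show t ^ 2 = 1 by omega]
      norm_num

/-- `S k = 1 + x + ⋯ + x ^ (k - 1)`. -/
theorem geomSum_mul_add_one (a k : ℕ) :
    (∑ i ∈ range k, (a + 1) ^ i) * a + 1 = (a + 1) ^ k := by
  induction k with
  | zero => simp
  | succ k ih => rw [sum_range_succ, pow_succ (a + 1) k]; linear_combination ih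

theorem geomSum_two_mul (x l : ℕ) :
    ∑ i ∈ range (l + l), x ^ i = (∑ i ∈ range l, x ^ i) * (x ^ l + 1) := by
  rw [sum_range_add, mul_add, mul_one, add_comm, sum_mul]
  exact congrArg (· + _) (sum_congr rfl fun i _ => by rw [pow_add, mul_comm])

theorem geomSum_emod_two {x : ℕ} (hx : Odd x) :
    ∀ k, (∑ i ∈ range k, x ^ i) % 2 = k % 2
  | 0 => rfl
  | k + 1 => by
    rw [sum_range_succ]
    have := Nat.odd_iff.1 (hx.pow (n := k))
    have := geomSum_emod_two hx k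
    omega

/-- The common divisor of `S l` and `x ^ l + 1` is at most `2`. -/
theorem gcd_geomSum_dvd_two {x : ℕ} (hx : 0 < x) (l : ℕ) :
    Nat.gcd (∑ i ∈ range l, x ^ i) (x ^ l + 1) ∣ 2 := by
  obtain ⟨a, rfl⟩ : ∃ a, x = a + 1 := ⟨x - 1, by omega⟩
  set g := Nat.gcd (∑ i ∈ range l, (a + 1) ^ i) ((a + 1) ^ l + 1)
  have h1 : g ∣ (∑ i ∈ range l, (a + 1) ^ i) * a := (Nat.gcd_dvd_left _ _).mul_right a
  have h2 : g ∣ (∑ i ∈ range l, (a + 1) ^ i) * a + 2 := by
    rw [show (∑ i ∈ range l, (a + 1) ^ i) * a + 2 = (a + 1) ^ l + 1 by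
      rw [← geomSum_mul_add_one a l]]
    exact Nat.gcd_dvd_right _ _
  exact (Nat.dvd_add_right h1).1 h2

theorem sq_of_coprime_nat {a b c : ℕ} (h : Nat.Coprime a b) (e : a * b = c ^ 2) :
    ∃ u, a = u ^ 2 := exists_eq_pow_of_mul_eq_pow (Nat.isUnit_iff.2 h) e

theorem geomSum_eq_sq_odd {x y m : ℕ} (hx : 2 ≤ x) (hm : 1 ≤ m)
    (h : ∑ i ∈ range (2 * m + 1), x ^ i = y ^ 2) : x = 3 ∧ m = 2 ∧ y = 11 := by
  obtain ⟨a, rfl⟩ : ∃ a, x = a + 1 := ⟨x - 1, by omega⟩
  have e := geomSum_mul_add_one a (2 * m + 1)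
  rw [h] at e
  obtain ⟨j, hj⟩ := exists_pellOdd (x := ((a + 1 : ℕ) : ℤ)) (by omega)
    (X := ((a + 1 : ℕ) : ℤ) ^ m) (Y := (y : ℤ)) (one_le_pow₀ (by omega)) (Int.natCast_nonneg y) (by
      have := congrArg (Nat.cast : ℕ → ℤ) e
      push_cast at this ⊢
      linear_combination -this)
  have hj1 : j ≤ 1 := pellOdd_index_le_one (x := ((a + 1 : ℕ) : ℤ)) (by omega) fun q hq hd => by
    rw [hj] at hd
    exact (Nat.prime_iff_prime_int.1 hq).dvd_of_dvd_pow hd
  interval_cases j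
  · simp only [pellOdd, Prod.mk.injEq] at hj
    have : (a + 1) ^ m = 1 := by exact_mod_cast hj.1.symm
    rcases pow_eq_one_iff.1 this <;> omega
  · simp only [pellOdd, pellStep, Prod.mk.injEq] at hj
    push_cast at hj
    obtain ⟨h1, h2⟩ := hj
    have h3 : a + 1 ∣ 3 := by
      have : ((a : ℤ) + 1) ∣ 3 := by
        have := dvd_pow_self ((a : ℤ) + 1) (show m ≠ 0 by omega)
        rw [← h1] at this
        have := (dvd_mul_left ((a : ℤ) + 1) 4).sub this
        ring_nf at this ⊢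
        exact this
      exact_mod_cast this
    obtain rfl : a = 2 := by
      rcases Nat.prime_three.eq_one_or_self_of_dvd _ h3 <;> omega
    have h9 : 3 ^ m = 3 ^ 2 := by
      have : ((3 : ℕ) : ℤ) ^ m = 9 := by push_cast at h1 ⊢; linarith
      exact_mod_cast this
    refine ⟨rfl, Nat.pow_right_injective (by norm_num) h9, ?_⟩
    norm_num at h2
    omega

/-- **Ljunggren**: the squares `1 + x + ⋯ + x ^ (n - 1)`. -/
theorem geomSum_eq_sq {x y n : ℕ} (hx : 2 ≤ x) (hn : 3 ≤ n)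
    (h : ∑ i ∈ range n, x ^ i = y ^ 2) :
    (x = 3 ∧ n = 5 ∧ y = 11) ∨ (x = 7 ∧ n = 4 ∧ y = 20) := by
  rcases Nat.even_or_odd' n with ⟨m, rfl | rfl⟩
  swap
  · obtain ⟨rfl, rfl, rfl⟩ := geomSum_eq_sq_odd hx (by omega) h
    exact Or.inl ⟨rfl, rfl, rfl⟩
  right
  rw [two_mul, geomSum_two_mul] at h
  rcases (Nat.dvd_prime Nat.prime_two).1 (gcd_geomSum_dvd_two (by omega : 0 < x) m) with hg | hg
  · -- both factors are squares
    exfalso
    obtain ⟨z, hz⟩ := sq_of_coprime_nat (Nat.Coprime.symm hg) (by rw [mul_comm]; exact h)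
    obtain ⟨u, hu⟩ := sq_of_coprime_nat hg h
    rcases Nat.even_or_odd' m with ⟨l, rfl | rfl⟩
    · rw [two_mul, pow_add] at hz
      have hp : 0 < x ^ l := pow_pos (by omega) l
      have : x ^ l < z := by nlinarith
      nlinarith
    · obtain ⟨rfl, rfl, -⟩ := geomSum_eq_sq_odd hx (by omega) hu
      have : z ^ 2 = 244 := by rw [← hz]; norm_num
      have : z < 16 := by nlinarith
      interval_cases z <;> omega
  · obtain ⟨A, hA⟩ := hg ▸ Nat.gcd_dvd_left (∑ i ∈ range m, x ^ i) (x ^ m + 1)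
    obtain ⟨B, hB⟩ := hg ▸ Nat.gcd_dvd_right (∑ i ∈ range m, x ^ i) (x ^ m + 1)
    rw [hA, hB, Nat.gcd_mul_left] at hg
    have hco : Nat.Coprime A B := by simpa [Nat.Coprime] using hg
    rw [hA, hB] at h
    obtain ⟨y', rfl⟩ : 2 ∣ y :=
      Nat.prime_two.dvd_of_dvd_pow (n := 2) ⟨A * (2 * B), by rw [← h]; ring⟩
    have hAB : A * B = y' ^ 2 := by
      linarith [show 2 * A * (2 * B) = 4 * (A * B) by ring,
        show (2 * y') ^ 2 = 4 * y' ^ 2 by ring]
    obtain ⟨z, rfl⟩ := sq_of_coprime_nat hco.symm (by rw [mul_comm]; exact hAB)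
    have hxo : Odd x := by
      by_contra hc
      have := (Nat.not_odd_iff_even.1 hc).pow_of_ne_zero (show m ≠ 0 by omega)
      rw [Nat.even_iff] at this
      omega
    have hm2 := geomSum_emod_two hxo m
    rw [hA] at hm2
    obtain ⟨l, rfl⟩ : ∃ l, m = l + l := ⟨m / 2, by omega⟩
    rcases Nat.even_or_odd' l with ⟨i, rfl | rfl⟩
    · exfalso
      have := quartic_add_one (a := ((x ^ i : ℕ) : ℤ)) (z := (z : ℤ)) (by
        rw [show 2 * i + 2 * i = i * 4 by ring, pow_mul] at hB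
        exact_mod_cast hB)
      have : (x ^ i) ^ 2 = 1 := by exact_mod_cast this
      rcases pow_eq_one_iff.1 ((pow_eq_one_iff.1 this).resolve_right two_ne_zero) <;> omega
    · rw [geomSum_two_mul] at hA
      have hTo := geomSum_emod_two hxo (2 * i + 1)
      have hPe : (x ^ (2 * i + 1) + 1) % 2 = 0 := by
        have := Nat.odd_iff.1 (hxo.pow (n := 2 * i + 1))
        omega
      obtain ⟨P, hP⟩ := Nat.dvd_of_mod_eq_zero hPe
      have hAP : A = (∑ j ∈ range (2 * i + 1), x ^ j) * P := by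
        rw [hP] at hA
        linarith [show (∑ j ∈ range (2 * i + 1), x ^ j) * (2 * P) =
          2 * ((∑ j ∈ range (2 * i + 1), x ^ j) * P) by ring]
      obtain ⟨a, ha⟩ := sq_of_coprime_nat hco hAB
      rw [ha] at hAP
      have hcT : Nat.Coprime (∑ j ∈ range (2 * i + 1), x ^ j) P := by
        have hd := gcd_geomSum_dvd_two (show 0 < x by omega) (2 * i + 1)
        rcases (Nat.dvd_prime Nat.prime_two).1 hd with h1 | h1
        · rw [hP] at h1
          exact Nat.Coprime.coprime_mul_left_right h1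
        · have := Nat.mod_eq_zero_of_dvd (h1 ▸ Nat.gcd_dvd_left _ _)
          omega
      rcases Nat.eq_zero_or_pos i with rfl | hi
      · obtain ⟨b, rfl⟩ := sq_of_coprime_nat hcT.symm (by rw [mul_comm]; exact hAP.symm)
        simp only [mul_zero, zero_add, pow_one] at hP
        norm_num at hB
        have key : ((b : ℤ) ^ 4 + ((b : ℤ) ^ 2 - 1) ^ 2 = (z : ℤ) ^ 2) := by
          have hP' : (x : ℤ) + 1 = 2 * (b : ℤ) ^ 2 := by exact_mod_cast hP
          have hB' : (x : ℤ) ^ 2 + 1 = 2 * (z : ℤ) ^ 2 := by exact_mod_cast hB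
          rw [show (x : ℤ) = 2 * (b : ℤ) ^ 2 - 1 by linarith] at hB'
          linarith [show (2 * (b : ℤ) ^ 2 - 1) ^ 2 + 1 =
            2 * ((b : ℤ) ^ 4 + ((b : ℤ) ^ 2 - 1) ^ 2) by ring]
        have hb : b ^ 2 = 0 ∨ b ^ 2 = 1 ∨ b ^ 2 = 4 := by exact_mod_cast sq_eq_quartic_sum key
        obtain rfl : x = 7 := by omega
        refine ⟨rfl, rfl, ?_⟩
        have hA4 : A = 4 := by norm_num [sum_range_succ] at hA; omega
        have hz : z ^ 2 = 25 := by norm_num at hB; omega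
        rw [hA4, hz] at hAB
        have := Nat.pow_left_injective two_ne_zero (show y' ^ 2 = 10 ^ 2 by omega)
        omega
      · exfalso
        obtain ⟨u, hu⟩ := sq_of_coprime_nat hcT hAP.symm
        obtain ⟨b, rfl⟩ := sq_of_coprime_nat hcT.symm (by rw [mul_comm]; exact hAP.symm)
        obtain ⟨rfl, rfl, -⟩ := geomSum_eq_sq_odd hx hi hu
        have : b ^ 2 = 122 := by norm_num at hP; omega
        have : b < 12 := by nlinarith
        interval_cases b <;> omega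

end FA.SquareSequences
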