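import Mathlib

/-!
# Even powers from coprime products
-/

set_option autoImplicit false

namespace FA.SquareSequences

theorem pow_of_coprime_mul_nonneg {a b z : ℤ} {k : ℕ} (hk : Even k) (hk0 : k ≠ 0)
    (hco : IsCoprime a b) (ha : 0 ≤ a) (h : a * b = z ^ k) : ∃ u, a = u ^ k := by
  obtain ⟨u, hu⟩ := exists_associated_pow_of_mul_eq_pow' hco h
  rcases Int.associated_iff.1 hu with e | e
  · exact ⟨u, e.symm⟩
  · exact ⟨0, by rw [zero_pow hk0]; linarith [hk.pow_nonneg u]⟩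

theorem sq_sq_of_coprime_mul {a b z : ℤ} (hco : IsCoprime a b) (ha : 0 ≤ a) (hb : 0 ≤ b)
    (h : a * b = z ^ 2) : (∃ u, a = u ^ 2) ∧ ∃ v, b = v ^ 2 :=
  ⟨pow_of_coprime_mul_nonneg even_two two_ne_zero hco ha h,
    pow_of_coprime_mul_nonneg even_two two_ne_zero hco.symm hb (by rw [mul_comm]; exact h)⟩

end FA.SquareSequences
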