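import Mathlib

/-!
# Fibonacci and Lucas numbers modulo Lucas numbers

For every sequence `X (n + 2) = X (n + 1) + X n` and even `t ≠ 0` there is a Lucas number
`L_k ≡ 3 (mod 4)` dividing `X (m + 2 t) + X m` (Cohn). It bars both values from being of the
forms `e x²` and `e c²`.
-/

set_option autoImplicit false

namespace FA.SquareSequences

/-- Fibonacci numbers as integers. -/
abbrev F (n : ℕ) : ℤ := Nat.fib n

/-- Lucas numbers. -/
def L (n : ℕ) : ℤ := 2 * F (n + 1) - F n

/-- The recurrence of the Fibonacci numbers. -/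
def IsFibLike (X : ℕ → ℤ) : Prop := ∀ n, X (n + 2) = X (n + 1) + X n

theorem isFibLike_F : IsFibLike F := fun n => by
  simp only [F, Nat.fib_add_two]
  push_cast
  ring

theorem isFibLike_L : IsFibLike L := fun n => by
  simp only [L, isFibLike_F n, isFibLike_F (n + 1)]
  ring

/-- The sequence beginning with `a, b`. -/
def Z (a b : ℤ) (n : ℕ) : ℤ := a * (F (n + 1) - F n) + b * F n

theorem isFibLike_Z (a b : ℤ) : IsFibLike (Z a b) := fun n => by
  simp only [Z, isFibLike_F n, isFibLike_F (n + 1)]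
  ring

theorem IsFibLike.ext {X Y : ℕ → ℤ} (hX : IsFibLike X) (hY : IsFibLike Y) (h0 : X 0 = Y 0)
    (h1 : X 1 = Y 1) : ∀ n, X n = Y n
  | 0 => h0
  | 1 => h1
  | n + 2 => by rw [hX, hY, IsFibLike.ext hX hY h0 h1 n, IsFibLike.ext hX hY h0 h1 (n + 1)]

theorem IsFibLike.shift {X : ℕ → ℤ} (hX : IsFibLike X) (c : ℕ) : IsFibLike fun n => X (n + c) :=
  fun n => by
    show X (n + 2 + c) = X (n + 1 + c) + X (n + c)
    rw [show n + 2 + c = n + c + 2 by ring, show n + 1 + c = n + c + 1 by ring]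
    exact hX (n + c)

theorem IsFibLike.add {X : ℕ → ℤ} (hX : IsFibLike X) (m k : ℕ) :
    X (m + k) = X m * (F (k + 1) - F k) + X (m + 1) * F k := by
  induction k generalizing m with
  | zero => simp [F]
  | succ k ih =>
    rw [show m + (k + 1) = m + 1 + k by ring, ih (m + 1), show m + 1 + 1 = m + 2 by ring, hX m,
      show k + 1 + 1 = k + 2 by ring, isFibLike_F k]
    ring

theorem cassini (k : ℕ) : F (k + 1) ^ 2 - F (k + 1) * F k - F k ^ 2 = (-1) ^ k := by
  induction k with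
  | zero => simp [F]
  | succ k ih => rw [show k + 1 + 1 = k + 2 by ring, isFibLike_F k, pow_succ (-1 : ℤ), ← ih]; ring

theorem L_sq (k : ℕ) : L k ^ 2 - 5 * F k ^ 2 = 4 * (-1) ^ k := by
  rw [← cassini k, L]
  ring

theorem IsFibLike.two_mul {X : ℕ → ℤ} (hX : IsFibLike X) (m k : ℕ) :
    X (m + 2 * k) + (-1) ^ k * X m = X (m + k) * L k := by
  rw [show m + 2 * k = m + k + k by ring, hX.add (m + k) k, show m + k + 1 = m + 1 + k by ring,
    hX.add (m + 1) k, show m + 1 + 1 = m + 2 by ring, hX m, hX.add m k, ← cassini k, L]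
  ring

theorem F_two_mul (k : ℕ) : F (2 * k) = F k * L k := by
  rw [show 2 * k = k + k by ring, isFibLike_F.add k k, L]
  ring

theorem L_two_mul (k : ℕ) : L (2 * k) = L k ^ 2 - 2 * (-1) ^ k := by
  have h0 : L 0 = 2 := by simp [L, F]
  have := isFibLike_L.two_mul 0 k
  rw [zero_add, zero_add, h0] at this
  linarith [sq (L k)]

theorem L_pos (k : ℕ) : 0 < L k := by
  have h1 : (Nat.fib k : ℤ) ≤ Nat.fib (k + 1) := by exact_mod_cast Nat.fib_le_fib_succ
  have h2 : (0 : ℤ) < Nat.fib (k + 1) := by exact_mod_cast Nat.fib_pos.2 k.succ_pos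
  simp only [L, F]
  omega

theorem F_nonneg (k : ℕ) : 0 ≤ F k := Int.natCast_nonneg _

theorem IsFibLike.emod_periodic {X : ℕ → ℤ} (hX : IsFibLike X) {M : ℤ} {p : ℕ}
    (h0 : X p % M = X 0 % M) (h1 : X (p + 1) % M = X 1 % M) (n : ℕ) :
    X n % M = X (n % p) % M := by
  have step : ∀ m, X (m + p) % M = X m % M := by
    intro m
    induction m using Nat.twoStepInduction with
    | zero => rwa [zero_add]
    | one => rwa [add_comm]
    | more m ih ih' =>
      have := hX.shift p m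
      simp only at this
      rw [this, hX m, Int.add_emod, ih', ih, ← Int.add_emod]
  have : ∀ q r, X (r + q * p) % M = X r % M := by
    intro q r
    induction q with
    | zero => simp
    | succ q ih => rw [show r + (q + 1) * p = r + q * p + p by ring, step, ih]
  conv_lhs => rw [← Nat.mod_add_div n p, mul_comm p]
  exact this _ _

theorem L_emod_four {k : ℕ} (hk : Even k) (h3 : ¬ 3 ∣ k) : L k % 4 = 3 := by
  rw [isFibLike_L.emod_periodic (p := 6) (by decide) (by decide) k]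
  obtain h | h : k % 6 = 2 ∨ k % 6 = 4 := by rcases hk with ⟨j, rfl⟩; omega
  all_goals rw [h]; decide

theorem L_emod_three {k : ℕ} (hk : 4 ∣ k) : L k % 3 ≠ 0 := by
  rw [isFibLike_L.emod_periodic (p := 8) (by decide) (by decide) k]
  obtain h | h : k % 8 = 0 ∨ k % 8 = 4 := by omega
  all_goals rw [h]; decide

/-- `-1` is no square modulo a number `≡ 3 (mod 4)`. -/
theorem not_dvd_sq_add_sq {M x c : ℤ} (h0 : 0 < M) (hM : M % 4 = 3) (hc : IsCoprime c M) :
    ¬ M ∣ x ^ 2 + c ^ 2 := fun h => by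
  lift M to ℕ using h0.le with N
  have hN : N % 4 = 3 := by omega
  have ho : Odd N := Nat.odd_iff.2 (by omega)
  have hcg : c.gcd N = 1 := Int.isCoprime_iff_gcd_eq_one.1 hc
  have e : jacobiSym (x ^ 2) N = jacobiSym (-1 * c ^ 2) N :=
    jacobiSym.mod_left' (Int.emod_eq_emod_iff_emod_sub_eq_zero.2
      (Int.emod_eq_zero_of_dvd (by rwa [show x ^ 2 - -1 * c ^ 2 = x ^ 2 + c ^ 2 by ring])))
  rw [jacobiSym.mul_left, jacobiSym.at_neg_one ho, ZMod.χ₄_nat_three_mod_four hN,
    jacobiSym.sq_one' hcg, jacobiSym.pow_left] at e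
  nlinarith [sq_nonneg (jacobiSym x N)]

/-- **Cohn's congruence** in the form used: no `e c²` and `e x²` at indices `m` and `m + 2 t`. -/
theorem IsFibLike.false_of_squares {X : ℕ → ℤ} (hX : IsFibLike X) {m t : ℕ} (ht0 : t ≠ 0)
    (hte : Even t) {e c x : ℤ} (hm : X m = e * c ^ 2) (hx : X (m + 2 * t) = e * x ^ 2)
    (hco : ∀ k, Even k → ¬ 3 ∣ k → (4 ∣ t → 4 ∣ k) → IsCoprime (e * c) (L k)) : False := by
  obtain ⟨v, k, hk3, rfl⟩ := Nat.exists_eq_pow_mul_and_not_dvd ht0 3 (by norm_num)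
  have hke : Even k := (Nat.even_mul.1 hte).resolve_left (by
    rw [Nat.not_even_iff_odd]; exact (show Odd 3 by decide).pow)
  obtain ⟨s, hs⟩ : Odd (3 ^ v) := (show Odd 3 by decide).pow
  have hk4 : 4 ∣ 3 ^ v * k → 4 ∣ k := fun h =>
    (Nat.Coprime.pow_right v (by decide : Nat.Coprime 4 3)).dvd_of_dvd_mul_left h
  have key : ∀ a, L k ∣ X (a + 2 * k) + X a := fun a => by
    rw [← one_mul (X a), ← hke.neg_one_pow (α := ℤ), hX.two_mul a k]
    exact dvd_mul_left _ _
  have hper : ∀ i, L k ∣ X (m + 2 * (2 * i + 1) * k) + X m := by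
    intro i
    induction i with
    | zero => simpa using key m
    | succ i ih =>
      have h1 := key (m + 2 * (2 * i + 1) * k)
      have h2 := key (m + 2 * (2 * i + 1) * k + 2 * k)
      rw [show m + 2 * (2 * (i + 1) + 1) * k = m + 2 * (2 * i + 1) * k + 2 * k + 2 * k by ring]
      have := (h2.sub h1).add ih
      ring_nf at this ⊢
      exact this
  have hd := hper s
  rw [show m + 2 * (2 * s + 1) * k = m + 2 * (3 ^ v * k) by rw [hs]; ring, hx, hm, ← mul_add] at hd
  obtain ⟨hce, hcc⟩ := IsCoprime.mul_left_iff.1 (hco k hke hk3 hk4)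
  exact not_dvd_sq_add_sq (L_pos k) (L_emod_four hke hk3) hcc (hce.symm.dvd_of_dvd_mul_left hd)

theorem isCoprime_two_L {k : ℕ} (hk : Even k) (h3 : ¬ 3 ∣ k) : IsCoprime (2 : ℤ) (L k) :=
  ⟨-(L k / 2), 1, by have := L_emod_four hk h3; omega⟩

theorem isCoprime_three_L {k : ℕ} (hk : 4 ∣ k) : IsCoprime (3 : ℤ) (L k) :=
  Int.prime_three.coprime_iff_not_dvd.2 fun h => L_emod_three hk (Int.emod_eq_zero_of_dvd h)

end FA.SquareSequences
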