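import Fermat.Agent.SquareSequences.Basic
import Fermat.Agent.SquareSequences.Lucas

/-!
# Squares among Fibonacci and Lucas numbers (Cohn)

The squares and twice squares among the Fibonacci numbers `F_n` and the Lucas numbers `L_n`.
-/

set_option autoImplicit false

namespace FA.SquareSequences

/-- `F_j` and `L_j` are coprime, or twice coprime numbers. -/
theorem F_L_cases (j : ℕ) : (F j % 2 = 1 ∧ L j % 2 = 1 ∧ IsCoprime (F j) (L j)) ∨
    ∃ A B, F j = 2 * A ∧ L j = 2 * B ∧ IsCoprime A B := by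
  have hs := L_sq j
  have hpar : L j % 2 = F j % 2 := by rw [L]; omega
  rcases Int.emod_two_eq_zero_or_one (F j) with h | h
  · obtain ⟨A, hA⟩ := Int.dvd_of_emod_eq_zero h
    obtain ⟨B, hB⟩ := Int.dvd_of_emod_eq_zero (hpar.trans h)
    refine Or.inr ⟨A, B, hA, hB, -5 * (-1) ^ j * A, (-1) ^ j * B, ?_⟩
    rw [hA, hB] at hs
    have e : ((-1 : ℤ) ^ j) ^ 2 = 1 := by rw [← pow_mul, mul_comm]; simp
    have : B ^ 2 - 5 * A ^ 2 = (-1) ^ j := by linarith
    linear_combination (-1) ^ j * this + e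
  · refine Or.inl ⟨h, hpar.trans h, ?_⟩
    have h4 : IsCoprime (F j) 4 := by
      rw [show (4 : ℤ) = 2 ^ 2 by norm_num]
      exact IsCoprime.pow_right ⟨1, -(F j / 2), by omega⟩
    obtain ⟨u, v, huv⟩ := h4
    refine ⟨u - 5 * v * (-1) ^ j * F j, v * (-1) ^ j * L j, ?_⟩
    have e : ((-1 : ℤ) ^ j) ^ 2 = 1 := by rw [← pow_mul, mul_comm]; simp
    linear_combination huv + v * (-1) ^ j * hs + 4 * v * e

theorem L_eq_sq {n : ℕ} {x : ℤ} (h : L n = x ^ 2) : n = 1 ∨ n = 3 := by
  rcases Nat.even_or_odd' n with ⟨j, rfl | rfl⟩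
  · exfalso
    rw [L_two_mul] at h
    have h4 : ∀ a : ℤ, a ^ 2 % 4 = 0 ∨ a ^ 2 % 4 = 1 := fun a => by
      rcases Int.even_or_odd' a with ⟨b, rfl | rfl⟩
      · left; exact Int.emod_eq_zero_of_dvd ⟨b ^ 2, by ring⟩
      · right; rw [show (2 * b + 1) ^ 2 = 4 * (b ^ 2 + b) + 1 by ring]; omega
    have := h4 x
    have := h4 (L j)
    rcases neg_one_pow_eq_or ℤ j with e | e <;> rw [e] at h <;> omega
  · by_contra hn
    rcases Nat.even_or_odd' j with ⟨i, rfl | rfl⟩
    · exact isFibLike_L.false_of_squares (m := 1) (t := 2 * i) (e := 1) (c := 1) (x := x) (by omega)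
        ⟨i, by ring⟩ (by decide) (by rw [one_mul, add_comm 1]; exact h)
        (fun k _ _ _ => by simpa using isCoprime_one_left)
    · refine isFibLike_L.false_of_squares (m := 3) (t := 2 * i) (e := 1) (c := 2) (x := x)
        (by omega) ⟨i, by ring⟩ (by decide) ?_
        (fun k hk h3 _ => by simpa using isCoprime_two_L hk h3)
      rw [one_mul, ← h]; ring_nf

theorem L_eq_two_mul_sq {n : ℕ} {x : ℤ} (h : L n = 2 * x ^ 2) : n = 0 ∨ n = 6 := by
  by_contra hn
  have cop : ∀ k, Even k → ¬ 3 ∣ k → 4 ∣ k → IsCoprime (2 * 3 : ℤ) (L k) := fun k hk h3 h4 =>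
    (isCoprime_two_L hk h3).mul_left (isCoprime_three_L h4)
  rcases (show n % 2 = 1 ∨ n % 4 = 0 ∨ n % 8 = 2 ∨ n % 8 = 6 by omega) with h' | h' | h' | h'
  · have h8 := isFibLike_L.emod_periodic (M := 8) (p := 12) (by decide) (by decide) n
    rw [h] at h8
    have hx : 2 * x ^ 2 % 8 = 0 ∨ 2 * x ^ 2 % 8 = 2 := by
      rcases Int.even_or_odd' x with ⟨a, rfl | rfl⟩
      · left; exact Int.emod_eq_zero_of_dvd ⟨a ^ 2, by ring⟩
      · right
        obtain ⟨b, hb⟩ := Int.even_mul_succ_self a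
        rw [show 2 * (2 * a + 1) ^ 2 = 8 * (a * (a + 1)) + 2 by ring]
        omega
    have : ∀ r, r < 12 → r % 2 = 1 → L r % 8 ≠ 0 ∧ L r % 8 ≠ 2 := by decide
    obtain ⟨a, b⟩ := this (n % 12) (by omega) (by omega)
    omega
  · refine isFibLike_L.false_of_squares (m := 0) (t := n / 2) (e := 2) (c := 1) (x := x) (by omega)
      (Nat.even_iff.2 (by omega)) (by decide) ?_
      (fun k hk h3 _ => by simpa using isCoprime_two_L hk h3)
    rwa [show 0 + 2 * (n / 2) = n by omega]
  · refine (isFibLike_Z 18 (-11)).false_of_squares (m := 0) (t := (n + 6) / 2) (e := 2) (c := 3)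
      (x := x) (by omega) (Nat.even_iff.2 (by omega)) (by decide) ?_
      (fun k hk h3 h4 => cop k hk h3 (h4 (by omega)))
    rw [show 0 + 2 * ((n + 6) / 2) = n + 6 by omega, ← h]
    exact ((isFibLike_Z 18 (-11)).shift 6).ext isFibLike_L (by decide) (by decide) n
  · refine isFibLike_L.false_of_squares (m := 6) (t := (n - 6) / 2) (e := 2) (c := 3) (x := x)
      (by omega) (Nat.even_iff.2 (by omega)) (by decide) ?_
      (fun k hk h3 h4 => cop k hk h3 (h4 (by omega)))
    rwa [show 6 + 2 * ((n - 6) / 2) = n by omega]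

theorem F_eq_sq {n : ℕ} {x : ℤ} (h : F n = x ^ 2) : n = 0 ∨ n = 1 ∨ n = 2 ∨ n = 12 := by
  by_contra hn
  rcases (show n % 4 = 1 ∨ n % 4 = 3 ∨ n % 2 = 0 by omega) with h' | h' | h'
  · refine isFibLike_F.false_of_squares (m := 1) (t := n / 2) (e := 1) (c := 1) (x := x) (by omega)
      (Nat.even_iff.2 (by omega)) (by decide) ?_ (fun k _ _ _ => by simpa using isCoprime_one_left)
    rwa [one_mul, show 1 + 2 * (n / 2) = n by omega]
  · refine (isFibLike_Z 1 0).false_of_squares (m := 0) (t := (n + 1) / 2) (e := 1) (c := 1)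
      (x := x) (by omega) (Nat.even_iff.2 (by omega)) (by decide) ?_
      (fun k _ _ _ => by simpa using isCoprime_one_left)
    rw [one_mul, show 0 + 2 * ((n + 1) / 2) = n + 1 by omega, ← h]
    exact ((isFibLike_Z 1 0).shift 1).ext isFibLike_F (by decide) (by decide) n
  · obtain ⟨j, rfl⟩ : ∃ j, n = 2 * j := ⟨n / 2, by omega⟩
    rw [F_two_mul] at h
    rcases F_L_cases j with ⟨hF, -, hco⟩ | ⟨A, B, hA, hB, hco⟩
    · obtain ⟨-, v, hv⟩ := sq_sq_of_coprime_mul hco (F_nonneg j) (L_pos j).le h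
      rcases L_eq_sq hv with rfl | rfl
      · omega
      · revert hF; decide
    · obtain ⟨z, rfl⟩ : (2 : ℤ) ∣ x :=
        Int.prime_two.dvd_of_dvd_pow (n := 2) ⟨A * L j, by rw [← h, hA]; ring⟩
      obtain ⟨-, v, hv⟩ := sq_sq_of_coprime_mul hco (z := z) (by linarith [F_nonneg j])
        (by linarith [L_pos j]) (by
          rw [hA, hB] at h
          linarith [show (2 * z) ^ 2 = 4 * z ^ 2 by ring,
            show 2 * A * (2 * B) = 4 * (A * B) by ring])
      rcases L_eq_two_mul_sq (x := v) (by rw [hB, hv]) with rfl | rfl <;> omega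

theorem F_eq_two_mul_sq {n : ℕ} {x : ℤ} (h : F n = 2 * x ^ 2) : n = 0 ∨ n = 3 ∨ n = 6 := by
  by_contra hn
  rcases (show n % 4 = 1 ∨ n % 4 = 3 ∨ n % 2 = 0 by omega) with h' | h' | h'
  · refine (isFibLike_Z 2 (-1)).false_of_squares (m := 0) (t := (n + 3) / 2) (e := 2) (c := 1)
      (x := x) (by omega) (Nat.even_iff.2 (by omega)) (by decide) ?_
      (fun k hk h3 _ => by simpa using isCoprime_two_L hk h3)
    rw [show 0 + 2 * ((n + 3) / 2) = n + 3 by omega, ← h]
    exact ((isFibLike_Z 2 (-1)).shift 3).ext isFibLike_F (by decide) (by decide) n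
  · refine isFibLike_F.false_of_squares (m := 3) (t := (n - 3) / 2) (e := 2) (c := 1) (x := x)
      (by omega) (Nat.even_iff.2 (by omega)) (by decide) ?_
      (fun k hk h3 _ => by simpa using isCoprime_two_L hk h3)
    rwa [show 3 + 2 * ((n - 3) / 2) = n by omega]
  · obtain ⟨j, rfl⟩ : ∃ j, n = 2 * j := ⟨n / 2, by omega⟩
    rw [F_two_mul] at h
    rcases F_L_cases j with ⟨hF, hL, -⟩ | ⟨A, B, hA, hB, hco⟩
    · have := Int.mul_emod (F j) (L j) 2
      rw [h, hF, hL, Int.mul_emod_right] at this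
      norm_num at this
    · rw [hA, hB] at h
      obtain ⟨z, rfl⟩ : (2 : ℤ) ∣ x :=
        Int.prime_two.dvd_of_dvd_pow (n := 2) ⟨A * B, by linarith⟩
      have hAB : A * B = 2 * z ^ 2 := by linarith [show 2 * (2 * z) ^ 2 = 4 * (2 * z ^ 2) by ring,
        show 2 * A * (2 * B) = 4 * (A * B) by ring]
      have hA0 := F_nonneg j
      have hB0 := L_pos j
      rcases Int.prime_two.dvd_or_dvd ⟨z ^ 2, hAB⟩ with ⟨A', rfl⟩ | ⟨B', rfl⟩
      · obtain ⟨⟨u, hu⟩, v, hv⟩ := sq_sq_of_coprime_mul (z := z) hco.of_mul_left_right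
          (by linarith) (by linarith) (by linarith)
        rcases L_eq_two_mul_sq (x := v) (by rw [hB, hv]) with rfl | rfl
        · omega
        · have : F 6 = 8 := by decide
          rw [this, hu] at hA
          rcases Int.even_or_odd' u with ⟨a, rfl | rfl⟩
          · have : a ^ 2 * 2 = 1 := by linarith
            omega
          · have : (2 * a + 1) ^ 2 = 4 * (a ^ 2 + a) + 1 := by ring
            omega
      · obtain ⟨-, v, hv⟩ := sq_sq_of_coprime_mul (z := z) hco.of_mul_right_right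
          (by linarith) (by linarith) (by linarith)
        rcases L_eq_sq (x := 2 * v) (by rw [hB, hv]; ring) with rfl | rfl
        · have : F 1 = 1 := by decide
          omega
        · omega

end FA.SquareSequences
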